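import Fermat.Agent.GaloisReps.Model
import Fermat.Agent.IntegralStructure.HeckeFinite
import Mathlib.LinearAlgebra.FreeModule.PID

/-!
# The plane attached to a system of Hecke eigenvalues

The eigenspaces of a `HeckeGaloisModel` are planes over every field of characteristic zero, and the
integral eigenvectors form a free module of rank two over every principal ideal domain.
-/

set_option autoImplicit false

noncomputable section

open Module

namespace Fermat.Agent.GaloisReps

section Transfer

variable {K L : Type*} [Field K] [Field L] (f : K →+* L) {ι : Type*} [Fintype ι]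

/-- Linearly independent coordinate vectors stay independent under a field embedding. -/
lemma linearIndependent_comp_fieldHom {r : ℕ} {v : Fin r → ι → K} (hv : LinearIndependent K v) :
    LinearIndependent L fun a i => f (v a i) := by
  classical
  set V : Matrix ι (Fin r) K := Matrix.of fun i a => v a i
  obtain ⟨g, hg⟩ := V.mulVecLin.exists_leftInverse_of_injective
    (LinearMap.ker_eq_bot.mpr (Matrix.mulVec_injective_iff.mpr hv))
  have hW : LinearMap.toMatrix' g * V = 1 := by
    rw [← LinearMap.toMatrix'_toLin' V, ← LinearMap.toMatrix'_comp]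
    exact (congrArg LinearMap.toMatrix' hg).trans LinearMap.toMatrix'_id
  refine (Matrix.mulVec_injective_iff (M := V.map f)).mp fun x y h => ?_
  simpa [Matrix.mulVec_mulVec, ← Matrix.map_mul, hW] using
    congrArg ((LinearMap.toMatrix' g).map f).mulVec h

lemma finrank_le_of_map {U : Submodule K (ι → K)} {U' : Submodule L (ι → L)}
    (h : ∀ u ∈ U, (fun i => f (u i)) ∈ U') : finrank K U ≤ finrank L U' := by
  have hli : LinearIndependent L fun a => (⟨_, h _ (finBasis K U a).2⟩ : U') :=
    LinearIndependent.of_comp U'.subtype (linearIndependent_comp_fieldHom f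
      ((finBasis K U).linearIndependent.map' U.subtype (Submodule.ker_subtype _)))
  simpa using hli.fintype_card_le_finrank

variable {m : Type*} [Fintype m] [DecidableEq ι]

omit [DecidableEq ι] in
/-- The kernel of a matrix has the same dimension over a field extension. -/
lemma finrank_ker_map (M : Matrix m ι K) :
    finrank L (LinearMap.ker (M.map f).mulVecLin) = finrank K (LinearMap.ker M.mulVecLin) := by
  have hcast : ∀ v : ι → K, (M.map f).mulVec (fun i => f (v i)) = fun j => f (M.mulVec v j) := by
    intro v; funext j; simp [Matrix.mulVec, dotProduct]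
  have hk := finrank_le_of_map f (U := LinearMap.ker M.mulVecLin) (U' := LinearMap.ker (M.map f).mulVecLin) fun v hv => by
    rw [LinearMap.mem_ker, Matrix.mulVecLin_apply] at hv ⊢
    rw [hcast, hv]; funext j; simp
  have hr := finrank_le_of_map f (U := LinearMap.range M.mulVecLin) (U' := LinearMap.range (M.map f).mulVecLin) fun w ⟨v, hv⟩ =>
    ⟨fun i => f (v i), by rw [Matrix.mulVecLin_apply, hcast, ← hv]; rfl⟩
  have h1 := LinearMap.finrank_range_add_finrank_ker M.mulVecLin
  have h2 := LinearMap.finrank_range_add_finrank_ker (M.map f).mulVecLin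
  rw [Module.finrank_fintype_fun_eq_card] at h1 h2
  omega

end Transfer

variable {N p : ℕ} [NeZero N] [Fact p.Prime]

instance : Module.Finite ℤ (FullHecke N) := IntegralStructure.heckeAlgebra_finite N 2 ∅

namespace HeckeGaloisModel

variable (D : HeckeGaloisModel N p)

/-- The eigenspace as a single kernel. -/
lemma exists_eigenspace_eq_ker :
    ∃ (r : ℕ) (t : Fin r → FullHecke N), ∀ {R : Type} [CommRing R] (θ : FullHecke N →+* R)
      (v : Fin D.d → R), v ∈ eigenspace D.hecke θ ↔
        ∀ a, (matIn D.hecke R (t a)).mulVec v = θ (t a) • v := by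
  obtain ⟨r, t, ht⟩ := Submodule.fg_iff_exists_fin_generating_family.mp
    (Module.Finite.fg_top (R := ℤ) (M := FullHecke N))
  refine ⟨r, t, fun {R} _ θ v => ?_⟩
  rw [mem_eigenspace]
  refine ⟨fun h a => h (t a), fun h x => ?_⟩
  have hx : x ∈ Submodule.span ℤ (Set.range t) := ht ▸ Submodule.mem_top
  induction hx using Submodule.span_induction with
  | mem x hx => obtain ⟨a, rfl⟩ := hx; exact h a
  | zero => simp
  | add x y _ _ hx hy => rw [map_add, map_add, Matrix.add_mulVec, hx, hy, add_smul]
  | smul c x _ hx =>
    rw [map_zsmul, map_zsmul, Matrix.smul_mulVec, hx, smul_assoc]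

lemma finrank_eigenspace_map {K L : Type} [Field K] [Field L] (f : K →+* L)
    (θ : FullHecke N →+* K) :
    finrank L (eigenspace D.hecke (f.comp θ)) = finrank K (eigenspace D.hecke θ) := by
  classical
  obtain ⟨r, t, ht⟩ := D.exists_eigenspace_eq_ker
  let M : Matrix (Fin r × Fin D.d) (Fin D.d) K :=
    fun x j => (matIn D.hecke K (t x.1)) x.2 j - if x.2 = j then θ (t x.1) else 0
  have key : ∀ {R : Type} [CommRing R] (g : K →+* R),
      eigenspace D.hecke (g.comp θ) = LinearMap.ker (M.map g).mulVecLin := by
    intro R _ g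
    ext v
    rw [ht, LinearMap.mem_ker, Matrix.mulVecLin_apply, funext_iff, Prod.forall]
    refine forall_congr' fun a => ?_
    rw [funext_iff]
    refine forall_congr' fun i => ?_
    have : (M.map g).mulVec v (a, i) =
        (matIn D.hecke R (t a)).mulVec v i - g (θ (t a)) * v i := by
      simp [Matrix.mulVec, dotProduct, Matrix.map, M, sub_mul, Finset.sum_sub_distrib, apply_ite g]
    simp only [this, Pi.zero_apply, sub_eq_zero, RingHom.comp_apply, Pi.smul_apply, smul_eq_mul]
  rw [key f]
  have h := key (RingHom.id K)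
  rw [RingHom.id_comp] at h
  simp only [show M.map (RingHom.id K) = M from Matrix.ext fun _ _ => rfl] at h
  rw [h, finrank_ker_map]

lemma map_mem_eigenspace {R R' : Type} [CommRing R] [CommRing R'] (f : R →+* R')
    (θ : FullHecke N →+* R) {v : Fin D.d → R} (hv : v ∈ eigenspace D.hecke θ) :
    (fun i => f (v i)) ∈ eigenspace D.hecke (f.comp θ) := by
  rw [mem_eigenspace] at hv ⊢
  intro a
  funext i
  have h := congrArg f (congrFun (hv a) i)
  simpa [Matrix.mulVec, dotProduct, map_sum] using h

/-- Every character to a field of characteristic zero factors through a subfield of `ℂ`. -/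
lemma exists_factor {E : Type} [Field E] [CharZero E] (θ : FullHecke N →+* E) :
    ∃ (K₀ : IntermediateField ℚ E) (θ₀ : FullHecke N →+* K₀) (_ : K₀ →+* ℂ),
      θ = (algebraMap K₀ E).comp θ₀ := by
  set K₀ : IntermediateField ℚ E := IntermediateField.adjoin ℚ (Set.range θ)
  have halg : Algebra.IsAlgebraic ℚ K₀ := by
    refine IntermediateField.isAlgebraic_adjoin ?_
    rintro _ ⟨a, rfl⟩
    exact ((Algebra.IsIntegral.isIntegral (R := ℤ) a).map θ.toIntAlgHom).tower_top
  exact ⟨K₀, θ.codRestrict K₀ fun a => IntermediateField.subset_adjoin ℚ _ ⟨a, rfl⟩,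
    (IsAlgClosed.lift : K₀ →ₐ[ℚ] ℂ).toRingHom, rfl⟩

theorem finrank_eigenspace {E : Type} [Field E] [CharZero E] (θ : FullHecke N →+* E) :
    finrank E (eigenspace D.hecke θ) = 2 := by
  obtain ⟨K₀, θ₀, ι, rfl⟩ := exists_factor θ
  rw [D.finrank_eigenspace_map, ← D.finrank_eigenspace_map ι, D.eigenspace_finrank]

theorem exists_inv_ne_smul {E : Type} [Field E] [CharZero E] (θ : FullHecke N →+* E) (c : E) :
    ∃ v ∈ eigenspace D.hecke θ, (D.inv.map (Int.castRingHom E)).mulVec v ≠ c • v := by
  classical
  obtain ⟨K₀, θ₀, ι, rfl⟩ := exists_factor θ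
  by_contra! hall
  set b := finBasis K₀ (eigenspace D.hecke θ₀)
  have h2 : finrank K₀ (eigenspace D.hecke θ₀) = 2 := D.finrank_eigenspace θ₀
  have hcomm : ∀ {R : Type} [CommRing R] (g : K₀ →+* R) (w : Fin D.d → K₀),
      (D.inv.map (Int.castRingHom R)).mulVec (fun i => g (w i)) =
        fun i => g ((D.inv.map (Int.castRingHom K₀)).mulVec w i) := by
    intro R _ g w; funext i; simp [Matrix.mulVec, dotProduct, map_sum]
  obtain ⟨c₀, hc₀⟩ : ∃ c₀ : K₀, algebraMap K₀ E c₀ = c := by
    have hb : (b ⟨0, by omega⟩ : Fin D.d → K₀) ≠ 0 :=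
      fun h => b.ne_zero _ (Subtype.ext h)
    obtain ⟨i, hi⟩ := Function.ne_iff.mp hb
    have hE := congrFun (hall _ (D.map_mem_eigenspace (algebraMap K₀ E) θ₀
      (b ⟨0, by omega⟩).2)) i
    rw [hcomm, Pi.smul_apply, smul_eq_mul] at hE
    simp only at hE
    refine ⟨(D.inv.map (Int.castRingHom K₀)).mulVec (b ⟨0, by omega⟩) i /
      (b ⟨0, by omega⟩ : Fin D.d → K₀) i, ?_⟩
    rw [map_div₀, hE, mul_div_assoc, div_self]
    · rw [mul_one]
    · simpa using hi
  have hb₀ : ∀ a, (D.inv.map (Int.castRingHom K₀)).mulVec (b a) =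
      c₀ • (b a : Fin D.d → K₀) := by
    intro a
    funext i
    have hE := congrFun (hall _ (D.map_mem_eigenspace (algebraMap K₀ E) θ₀ (b a).2)) i
    rw [hcomm] at hE
    simp only at hE
    refine (algebraMap K₀ E).injective ?_
    rw [hE, ← hc₀, Pi.smul_apply, smul_eq_mul, Pi.smul_apply, smul_eq_mul, map_mul]
  have hli := linearIndependent_comp_fieldHom ι
    (b.linearIndependent.map' (eigenspace D.hecke θ₀).subtype (Submodule.ker_subtype _))
  have hmem : ∀ a, (fun i => ι ((b a : Fin D.d → K₀) i)) ∈ eigenspace D.hecke (ι.comp θ₀) :=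
    fun a => D.map_mem_eigenspace ι θ₀ (b a).2
  have hspan : Submodule.span ℂ (Set.range fun a i => ι ((b a : Fin D.d → K₀) i)) =
      eigenspace D.hecke (ι.comp θ₀) := by
    refine Submodule.eq_of_le_of_finrank_le (Submodule.span_le.mpr ?_) ?_
    · rintro _ ⟨a, rfl⟩; exact hmem a
    · rw [D.eigenspace_finrank]
      exact le_of_eq (h2.symm.trans ((Fintype.card_fin _).symm.trans (finrank_span_eq_card hli).symm))
  obtain ⟨v, hv, hne⟩ := D.inv_not_scalar (ι.comp θ₀) (ι c₀)
  refine hne ?_
  clear hne
  rw [← hspan] at hv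
  induction hv using Submodule.span_induction with
  | mem v hv =>
    obtain ⟨a, rfl⟩ := hv
    rw [hcomm, hb₀]
    funext i
    simp
  | zero => simp
  | add x y _ _ hx hy => rw [Matrix.mulVec_add, hx, hy, smul_add]
  | smul z x _ hx => rw [Matrix.mulVec_smul, hx, smul_comm]

/-- Over a principal ideal domain of characteristic zero the integral eigenvectors have rank `2`. -/
theorem finrank_eigenspace_domain {O : Type} [CommRing O] [IsDomain O] [IsPrincipalIdealRing O]
    [CharZero O] (θ : FullHecke N →+* O) : finrank O (eigenspace D.hecke θ) = 2 := by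
  classical
  set E := FractionRing O
  have : CharZero E := charZero_of_injective_algebraMap (IsFractionRing.injective O E)
  set g := algebraMap O E
  set b := Module.Free.chooseBasis O (eigenspace D.hecke θ)
  have hinj : Function.Injective g := IsFractionRing.injective O E
  let L : (Fin D.d → O) →ₗ[O] (Fin D.d → E) :=
    { toFun := fun v i => g (v i)
      map_add' := fun x y => funext fun i => map_add g _ _
      map_smul' := fun c x => funext fun i => by simp [g, Algebra.smul_def] }
  have hLker : LinearMap.ker L = ⊥ :=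
    LinearMap.ker_eq_bot.mpr fun x y h => funext fun i => hinj (congrFun h i)
  have hli : LinearIndependent E fun a => L (b a : Fin D.d → O) := by
    rw [← LinearIndependent.iff_fractionRing O E]
    exact ((b.linearIndependent.map' (eigenspace D.hecke θ).subtype
      (Submodule.ker_subtype _)).map' L hLker)
  have hmem : ∀ a, L (b a : Fin D.d → O) ∈ eigenspace D.hecke (g.comp θ) :=
    fun a => D.map_mem_eigenspace g θ (b a).2
  have hspan : Submodule.span E (Set.range fun a => L (b a : Fin D.d → O)) =
      eigenspace D.hecke (g.comp θ) := by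
    refine le_antisymm (Submodule.span_le.mpr ?_) fun v hv => ?_
    · rintro _ ⟨a, rfl⟩; exact hmem a
    obtain ⟨s, hs⟩ := IsLocalization.exist_integer_multiples (nonZeroDivisors O) Finset.univ v
    choose w hw using fun i => hs i (Finset.mem_univ i)
    have hw' : L w = (s : O) • v := funext fun i => hw i
    have hwmem : w ∈ eigenspace D.hecke θ := by
      rw [mem_eigenspace] at hv ⊢
      intro a
      funext i
      refine hinj ?_
      have h := congrFun (hv a) i
      have e1 : g ((matIn D.hecke O a).mulVec w i) = (matIn D.hecke E a).mulVec (L w) i := by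
        simp [L, Matrix.mulVec, dotProduct, map_sum]
      rw [e1, hw', Matrix.mulVec_smul, Pi.smul_apply, h]
      show (s : O) • (g (θ a) * v i) = g (θ a * w i)
      rw [map_mul, show g (w i) = (s : O) • v i from hw i, Algebra.smul_def, Algebra.smul_def]
      ring
    have hv' : L w ∈ Submodule.span E (Set.range fun a => L (b a : Fin D.d → O)) := by
      have hexp := congrArg L (congrArg Subtype.val (b.sum_repr ⟨w, hwmem⟩))
      simp only [Submodule.coe_sum, map_sum, SetLike.val_smul, map_smul] at hexp
      rw [← hexp]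
      refine Submodule.sum_mem _ fun a _ => ?_
      rw [← algebraMap_smul E (b.repr ⟨w, hwmem⟩ a) (L _)]
      exact Submodule.smul_mem _ _ (Submodule.subset_span ⟨a, rfl⟩)
    rw [hw', ← algebraMap_smul E (s : O) v] at hv'
    exact (Submodule.smul_mem_iff _ (by
      rw [Ne, map_eq_zero_iff _ hinj]; exact nonZeroDivisors.coe_ne_zero s)).mp hv'
  have := D.finrank_eigenspace (g.comp θ)
  rw [← hspan, finrank_span_eq_card hli] at this
  rw [finrank_eq_card_chooseBasisIndex, this]

end HeckeGaloisModel

end Fermat.Agent.GaloisReps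

end
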