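import Mathlib.NumberTheory.Padics.RingHoms
import Mathlib.RingTheory.AdicCompletion.RingHom
import Mathlib.RingTheory.Ideal.Int

/-!
# The structure map from `ℤ_[p]` to a complete local ring of residue characteristic `p`
-/

set_option autoImplicit false

noncomputable section

namespace Fermat.Agent.GaloisReps

variable {p : ℕ} [Fact p.Prime]

/-- A map from the `p`-adic integers to a domain of characteristic zero is injective. -/
theorem injective_padicHom {S : Type*} [CommRing S] [IsDomain S] [CharZero S] (ι : ℤ_[p] →+* S) :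
    Function.Injective ι := by
  refine (injective_iff_map_eq_zero _).2 fun a ha => by_contra fun h0 => ?_
  rw [PadicInt.unitCoeff_spec h0, map_mul, map_pow, map_natCast] at ha
  rcases mul_eq_zero.1 ha with h | h
  · exact ((PadicInt.unitCoeff h0).isUnit.map ι).ne_zero h
  · exact pow_ne_zero _ (Nat.cast_ne_zero.2 (Fact.out : p.Prime).ne_zero) h

variable (O : Type) [CommRing O] [IsLocalRing O]
  [IsAdicComplete (IsLocalRing.maximalIdeal O) O]

/-- The structure map from the `p`-adic integers. -/
theorem exists_padicHom (hp : (p : O) ∈ IsLocalRing.maximalIdeal O) :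
    Nonempty (ℤ_[p] →+* O) := by
  set I := IsLocalRing.maximalIdeal O
  let f : ∀ n : ℕ, ℤ_[p] →+* O ⧸ I ^ n := fun n =>
    ((Ideal.Quotient.lift (Ideal.span {((p ^ n : ℕ) : ℤ)}) (Int.castRingHom (O ⧸ I ^ n)) (by
      intro a ha
      obtain ⟨b, rfl⟩ := Ideal.mem_span_singleton'.mp ha
      have h0 : ((p ^ n : ℕ) : O ⧸ I ^ n) = 0 := by
        rw [Nat.cast_pow, ← map_natCast (Ideal.Quotient.mk (I ^ n)) p, ← map_pow,
          Ideal.Quotient.eq_zero_iff_mem]
        exact Ideal.pow_mem_pow hp n
      simp only [eq_intCast, Int.cast_mul, Int.cast_natCast, h0, mul_zero])).comp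
      (Int.quotientSpanNatEquivZMod (p ^ n)).symm.toRingHom).comp (PadicInt.toZModPow n)
  refine ⟨IsAdicComplete.liftRingHom I f fun {m n} hmn => ?_⟩
  refine RingHom.ext fun x => ?_
  obtain ⟨k, hk⟩ := ZMod.intCast_surjective (PadicInt.toZModPow n x)
  have hk' : PadicInt.toZModPow m x = (k : ZMod (p ^ m)) := by
    rw [← PadicInt.zmod_cast_comp_toZModPow m n hmn, RingHom.comp_apply, ← hk, map_intCast]
  simp only [f, RingHom.comp_apply, ← hk, hk', map_intCast]

end Fermat.Agent.GaloisReps

end
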