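import Fermat.Agent.GaloisReps.EigenPlane
import Fermat.Agent.GaloisReps.FiniteLevel
import Fermat.Agent.GaloisReps.PadicHom
import Mathlib.LinearAlgebra.Charpoly.ToMatrix
import Mathlib.LinearAlgebra.Matrix.Charpoly.Coeff
import Mathlib.RingTheory.DiscreteValuationRing.Basic

/-!
# The adic Galois representation attached to a system of Hecke eigenvalues

For a model `D` and a character `θ : T → O` to a complete discrete valuation ring of residue
characteristic `p` the eigen-lattice carries a two-dimensional representation whose Frobenius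
characteristic polynomials are `X² - θ(T_ℓ) X + ℓ`. When Frobenius acts as a scalar the determinant
is found by comparison with complex conjugation, which is never scalar on an eigen-lattice.
-/

set_option autoImplicit false

noncomputable section

open Module Polynomial

namespace Fermat.Agent.GaloisReps

section Plane

variable {O : Type*} [CommRing O] [IsDomain O] {V : Type*} [AddCommGroup V] [Module O V]
  [Module.Free O V] [Module.Finite O V]

/-- A linear map which is a scalar up to clearing denominators. -/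
def IsScalarLike (F : Module.End O V) : Prop :=
  ∃ a b : O, a ≠ 0 ∧ ∀ v, a • F v = b • v

lemma charpoly_of_quadratic (hV : finrank O V = 2) (F : Module.End O V) (t l : O) (hl : l ≠ 0)
    (hq : ∀ v, F (F v) - t • F v + l • v = 0) (hdet : IsScalarLike F → LinearMap.det F = l) :
    LinearMap.charpoly F = X ^ 2 - C t * X + C l := by
  classical
  set b : Basis (Fin 2) O V := Module.finBasisOfFinrankEq O V hV
  set M : Matrix (Fin 2) (Fin 2) O := LinearMap.toMatrix b b F with hM
  have hMq : M * M - t • M + l • (1 : Matrix (Fin 2) (Fin 2) O) = 0 := by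
    have : F * F - t • F + l • (1 : Module.End O V) = 0 := LinearMap.ext fun v => by simpa using hq v
    have h2 := congrArg (LinearMap.toMatrix b b) this
    simpa [map_add, map_sub, map_smul, Module.End.mul_eq_comp, LinearMap.toMatrix_comp b b b,
      Module.End.one_eq_id, LinearMap.toMatrix_id] using h2
  have e : ∀ i j, (M * M - t • M + l • (1 : Matrix (Fin 2) (Fin 2) O)) i j = 0 := fun i j => by
    rw [hMq]; rfl
  have e00 := e 0 0
  have e01 := e 0 1
  have e10 := e 1 0
  have e11 := e 1 1
  simp [Matrix.mul_apply, Fin.sum_univ_two] at e00 e01 e10 e11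
  rw [← LinearMap.charpoly_toMatrix F b, ← hM, Matrix.charpoly_fin_two]
  have hscal : ∀ a c : O, a ≠ 0 → (∀ i j, a * M i j = if i = j then c else 0) →
      M.trace = t ∧ M.det = l := by
    intro a c ha h
    have hs : IsScalarLike F := by
      refine ⟨a, c, ha, fun v => ?_⟩
      have : a • F = c • (1 : Module.End O V) := by
        refine (LinearMap.toMatrix b b).injective ?_
        ext i j
        simp [← hM, h, Matrix.one_apply, Module.End.one_eq_id]
      simpa using LinearMap.congr_fun this v
    have hd : M.det = l := by rw [hM, LinearMap.det_toMatrix]; exact hdet hs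
    refine ⟨?_, hd⟩
    have h00 := h 0 0
    have h11 := h 1 1
    have h01 := h 0 1
    simp at h00 h11 h01
    have hM01 : M 0 1 = 0 := h01.resolve_left ha
    have heq : M 1 1 = M 0 0 := mul_left_cancel₀ ha (h11.trans h00.symm)
    rw [Matrix.det_fin_two, hM01, heq] at hd
    have hne : M 0 0 ≠ 0 := by
      intro h0; exact hl (by rw [← hd, h0]; ring)
    rw [Matrix.trace_fin_two, heq]
    refine mul_left_cancel₀ hne ?_
    linear_combination e00 + hd - M 1 0 * hM01
  suffices M.trace = t ∧ M.det = l by rw [this.1, this.2]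
  by_cases ht : M.trace = t
  · refine ⟨ht, ?_⟩
    rw [Matrix.trace_fin_two] at ht
    rw [Matrix.det_fin_two]
    linear_combination M 0 0 * ht - e00
  · refine hscal (M.trace - t) (M.det - l) (sub_ne_zero.mpr ht) fun i j => ?_
    fin_cases i <;> fin_cases j <;> simp [Matrix.trace_fin_two, Matrix.det_fin_two, -mul_eq_zero]
    · linear_combination e00
    · linear_combination e01
    · linear_combination e10
    · linear_combination e11

end Plane

namespace HeckeGaloisModel

variable {N p : ℕ} [NeZero N] [Fact p.Prime] (D : HeckeGaloisModel N p)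
  {O : Type} [CommRing O] (ι : ℤ_[p] →+* O) (θ : FullHecke N →+* O)

/-- The Galois matrices read in `O`. -/
def galIn : AbsGal →* Matrix (Fin D.d) (Fin D.d) O :=
  (RingHom.mapMatrix (m := Fin D.d) ι).toMonoidHom.comp D.gal

@[simp] lemma galIn_apply (σ : AbsGal) : D.galIn ι σ = (D.gal σ).map ι := rfl

lemma matIn_map (a : FullHecke N) : (matIn D.hecke ℤ_[p] a).map ι = matIn D.hecke O a := by
  ext i j
  simp

lemma galIn_mem (σ : AbsGal) (v : Fin D.d → O) (hv : v ∈ eigenspace D.hecke θ) :
    (D.galIn ι σ).mulVecLin v ∈ eigenspace D.hecke θ := by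
  rw [mem_eigenspace] at hv ⊢
  intro a
  have h := congrArg (fun M : Matrix (Fin D.d) (Fin D.d) ℤ_[p] => M.map ι) (D.gal_comm σ a)
  simp only [Matrix.map_mul, D.matIn_map] at h
  rw [Matrix.mulVecLin_apply, Matrix.mulVec_mulVec, galIn_apply, ← h, ← Matrix.mulVec_mulVec,
    hv a, Matrix.mulVec_smul]

/-- The Galois action on the eigen-lattice. -/
def eigenAction : AbsGal →* Module.End O (eigenspace D.hecke θ) where
  toFun σ := (D.galIn ι σ).mulVecLin.restrict fun v hv => D.galIn_mem ι θ σ v hv
  map_one' := by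
    ext v
    simp [LinearMap.restrict_apply]
  map_mul' σ τ := by
    ext v
    simp [LinearMap.restrict_apply, Matrix.map_mul, Matrix.mulVec_mulVec]

@[simp] lemma coe_eigenAction (σ : AbsGal) (v : eigenspace D.hecke θ) :
    (D.eigenAction ι θ σ v : Fin D.d → O) = ((D.gal σ).map ι).mulVec v := by
  simp [eigenAction, LinearMap.restrict_apply]

variable [IsDomain O]

lemma exists_congr_one {n : ℕ} {σ : AbsGal} (h : (D.gal σ).map (PadicInt.toZModPow n) = 1) :
    ∃ M : Matrix (Fin D.d) (Fin D.d) ℤ_[p], D.gal σ = 1 + (p : ℤ_[p]) ^ n • M := by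
  have hmem : ∀ i j, (D.gal σ - 1) i j ∈ Ideal.span {(p : ℤ_[p]) ^ n} := by
    intro i j
    rw [← PadicInt.ker_toZModPow, RingHom.mem_ker, Matrix.sub_apply, map_sub, sub_eq_zero]
    have h1 := congrFun (congrFun h i) j
    rw [Matrix.map_apply] at h1
    rw [h1]
    by_cases hij : i = j <;> simp [Matrix.one_apply, hij]
  choose M hM using fun i j => Ideal.mem_span_singleton'.mp (hmem i j)
  refine ⟨Matrix.of M, ?_⟩
  ext i j
  have := hM i j
  simp only [Matrix.sub_apply] at this
  simp only [Matrix.add_apply, Matrix.smul_apply, Matrix.of_apply, smul_eq_mul]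
  linear_combination (-1 : ℤ_[p]) * this

lemma eigenAction_congr [CharZero O] {n : ℕ} {σ : AbsGal}
    (h : (D.gal σ).map (PadicInt.toZModPow n) = 1) (v : eigenspace D.hecke θ) :
    ∃ w : eigenspace D.hecke θ, D.eigenAction ι θ σ v - v = (p : O) ^ n • w := by
  obtain ⟨M, hM⟩ := D.exists_congr_one h
  set w₀ : Fin D.d → O := (M.map ι).mulVec (v : Fin D.d → O) with hw₀
  have hp : (p : O) ^ n ≠ 0 := pow_ne_zero _ (by exact_mod_cast (Fact.out : p.Prime).ne_zero)
  have hval : (D.eigenAction ι θ σ v : Fin D.d → O) - v = (p : O) ^ n • w₀ := by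
    rw [coe_eigenAction, hM, Matrix.map_add ι (map_add ι), Matrix.map_one ι (map_zero ι) (map_one ι),
      Matrix.add_mulVec, Matrix.one_mulVec, add_sub_cancel_left, hw₀, ← Matrix.smul_mulVec]
    congr 1
    ext i j
    simp [map_mul, map_pow]
  refine ⟨⟨w₀, ?_⟩, Subtype.ext hval⟩
  have hmem : (p : O) ^ n • w₀ ∈ eigenspace D.hecke θ := hval ▸ sub_mem (Subtype.mem _) v.2
  rw [mem_eigenspace] at hmem ⊢
  intro a
  have := hmem a
  rw [Matrix.mulVec_smul, smul_comm] at this
  exact smul_right_injective _ hp this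

variable [IsPrincipalIdealRing O] [CharZero O]

omit [IsPrincipalIdealRing O] in
lemma not_isScalarLike_conj {c : AbsGal} (hc : D.gal c = D.inv.map (Int.castRingHom ℤ_[p])) :
    ¬ IsScalarLike (D.eigenAction ι θ c) := by
  rintro ⟨a, b, ha, hab⟩
  set E := FractionRing O
  have : CharZero E := charZero_of_injective_algebraMap (IsFractionRing.injective O E)
  set g := algebraMap O E
  have hga : g a ≠ 0 := (map_ne_zero_iff _ (IsFractionRing.injective O E)).mpr ha
  obtain ⟨v, hv, hne⟩ := D.exists_inv_ne_smul (g.comp θ) (g b / g a)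
  obtain ⟨s, hs⟩ := IsLocalization.exist_integer_multiples (nonZeroDivisors O) Finset.univ v
  choose w hw using fun i => hs i (Finset.mem_univ i)
  have hgs : g s ≠ 0 :=
    (map_ne_zero_iff _ (IsFractionRing.injective O E)).mpr (nonZeroDivisors.coe_ne_zero s)
  have hgw : (fun i => g (w i)) = g s • v := funext fun i => by
    rw [show g (w i) = (s : O) • v i from hw i, Pi.smul_apply, Algebra.smul_def, smul_eq_mul]
  have hwmem : w ∈ eigenspace D.hecke θ := by
    rw [mem_eigenspace] at hv ⊢
    intro t
    funext i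
    refine IsFractionRing.injective O E ?_
    have e1 : g ((matIn D.hecke O t).mulVec w i) =
        (matIn D.hecke E t).mulVec (fun i => g (w i)) i := by
      simp [Matrix.mulVec, dotProduct, map_sum]
    rw [e1, hgw, Matrix.mulVec_smul, hv t, Pi.smul_apply, Pi.smul_apply, smul_eq_mul, smul_eq_mul,
      RingHom.comp_apply, Pi.smul_apply, smul_eq_mul, map_mul, congrFun hgw i]
    simp only [Pi.smul_apply, smul_eq_mul]
    ring
  refine hne (funext fun i => ?_)
  have h := congrArg g (congrFun (congrArg Subtype.val (hab ⟨w, hwmem⟩)) i)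
  simp only [SetLike.val_smul, coe_eigenAction, hc, Pi.smul_apply, smul_eq_mul, map_mul,
    congrFun hgw i] at h
  have e2 : g (((D.inv.map (Int.castRingHom ℤ_[p])).map ι).mulVec w i) =
      g s * (D.inv.map (Int.castRingHom E)).mulVec v i := by
    rw [← smul_eq_mul, ← Pi.smul_apply (g s) _ i, ← Matrix.mulVec_smul, ← hgw]
    simp [Matrix.mulVec, dotProduct, map_sum]
  rw [e2] at h
  rw [Pi.smul_apply, smul_eq_mul, div_mul_eq_mul_div, eq_div_iff hga]
  exact mul_left_cancel₀ hgs (by linear_combination h)

omit [IsDomain O] [IsPrincipalIdealRing O] [CharZero O] in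
lemma eigenAction_quadratic {ℓ : ℕ} (hℓ : ℓ.Prime) (hℓN : ¬ ℓ ∣ N * p)
    {A : ValuationSubring (AlgebraicClosure ℚ)} (hA : A.LiesOverPrime ℓ) {σ : AbsGal}
    (hσ : A.IsFrobeniusAt σ ℓ) (v : eigenspace D.hecke θ) :
    D.eigenAction ι θ σ (D.eigenAction ι θ σ v) -
      θ (HeckeDuality.heckeOp N 2 ℓ hℓ) • D.eigenAction ι θ σ v + (ℓ : O) • v = 0 := by
  refine Subtype.ext ?_
  have h := congrArg (fun M : Matrix (Fin D.d) (Fin D.d) ℤ_[p] => (M.map ι).mulVec v.1)
    (D.gal_frobenius ℓ hℓ hℓN A hA σ hσ)
  simp only [Matrix.map_add ι (map_add ι), Matrix.map_sub ι (map_sub ι), Matrix.map_mul,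
    D.matIn_map, Matrix.map_zero ι (map_zero ι), Matrix.zero_mulVec] at h
  rw [Matrix.add_mulVec, Matrix.sub_mulVec, ← Matrix.mulVec_mulVec, ← Matrix.mulVec_mulVec,
    ← coe_eigenAction, ← coe_eigenAction,
    (mem_eigenspace D.hecke θ _).mp (D.eigenAction ι θ σ v).2] at h
  have e : (((ℓ : ℤ_[p]) • (1 : Matrix (Fin D.d) (Fin D.d) ℤ_[p])).map ι).mulVec v.1 =
      (ℓ : O) • v.1 := by
    rw [← Matrix.one_mulVec (v.1), ← Matrix.smul_mulVec, Matrix.one_mulVec]
    congr 1
    ext i j
    by_cases hij : i = j <;> simp [hij]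
  rw [e] at h
  simpa using h

end HeckeGaloisModel

end Fermat.Agent.GaloisReps

end
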