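import Fermat.Agent.GaloisReps.Lattice

/-!
# The determinant at Frobenius and the adic representation
-/

set_option autoImplicit false

noncomputable section

open Module Polynomial

namespace Fermat.Agent.GaloisReps

namespace HeckeGaloisModel

variable {N p : ℕ} [NeZero N] [Fact p.Prime] (D : HeckeGaloisModel N p)
  {O : Type} [CommRing O] [IsDomain O] [IsDiscreteValuationRing O] [CharZero O]
  (ι : ℤ_[p] →+* O) (θ : FullHecke N →+* O)

/-- A basis of the eigen-lattice. -/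
def eigenBasis : Basis (Fin 2) O (eigenspace D.hecke θ) :=
  Module.finBasisOfFinrankEq O _ (D.finrank_eigenspace_domain θ)

/-- The matrix of a Galois element in the chosen basis. -/
def eigenMatrix (σ : AbsGal) : Matrix (Fin 2) (Fin 2) O :=
  LinearMap.toMatrix (D.eigenBasis θ) (D.eigenBasis θ) (D.eigenAction ι θ σ)

lemma eigenMatrix_congr {n : ℕ} {g h : AbsGal}
    (hgh : (D.gal (g⁻¹ * h)).map (PadicInt.toZModPow n) = 1) (i j : Fin 2) :
    (p : O) ^ n ∣ D.eigenMatrix ι θ h i j - D.eigenMatrix ι θ g i j := by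
  obtain ⟨w, hw⟩ := D.eigenAction_congr ι θ hgh (D.eigenBasis θ j)
  refine ⟨(D.eigenBasis θ).repr (D.eigenAction ι θ g w) i, ?_⟩
  have key : D.eigenAction ι θ h (D.eigenBasis θ j) - D.eigenAction ι θ g (D.eigenBasis θ j) =
      (p : O) ^ n • D.eigenAction ι θ g w := by
    rw [← map_smul, ← hw, map_sub, ← Module.End.mul_apply, ← map_mul, mul_inv_cancel_left]
  simp only [eigenMatrix, LinearMap.toMatrix_apply]
  rw [← Finsupp.sub_apply, ← map_sub, key, map_smul, Finsupp.smul_apply, smul_eq_mul]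

lemma det_congr {n : ℕ} {g h : AbsGal}
    (hgh : (D.gal (g⁻¹ * h)).map (PadicInt.toZModPow n) = 1) :
    (p : O) ^ n ∣ LinearMap.det (D.eigenAction ι θ h) - LinearMap.det (D.eigenAction ι θ g) := by
  rw [← LinearMap.det_toMatrix (D.eigenBasis θ), ← LinearMap.det_toMatrix (D.eigenBasis θ)
    (f := D.eigenAction ι θ g)]
  change _ ∣ (D.eigenMatrix ι θ h).det - (D.eigenMatrix ι θ g).det
  rw [Matrix.det_fin_two, Matrix.det_fin_two]
  obtain ⟨a, ha⟩ := D.eigenMatrix_congr ι θ hgh 0 0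
  obtain ⟨b, hb⟩ := D.eigenMatrix_congr ι θ hgh 0 1
  obtain ⟨c, hc⟩ := D.eigenMatrix_congr ι θ hgh 1 0
  obtain ⟨d, hd⟩ := D.eigenMatrix_congr ι θ hgh 1 1
  exact ⟨D.eigenMatrix ι θ h 0 0 * d + a * D.eigenMatrix ι θ g 1 1
      - D.eigenMatrix ι θ h 0 1 * c - b * D.eigenMatrix ι θ g 1 0, by
    linear_combination D.eigenMatrix ι θ g 1 1 * ha + D.eigenMatrix ι θ h 0 0 * hd
      - D.eigenMatrix ι θ g 1 0 * hb - D.eigenMatrix ι θ h 0 1 * hc⟩

omit [Fact p.Prime] [CharZero O] in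
lemma eq_zero_of_forall_pow_dvd (hp : (p : O) ∈ IsLocalRing.maximalIdeal O) {x : O}
    (h : ∀ n : ℕ, (p : O) ^ n ∣ x) : x = 0 := by
  have hmem : x ∈ ⨅ n : ℕ, IsLocalRing.maximalIdeal O ^ n := by
    refine Submodule.mem_iInf _ |>.mpr fun n => ?_
    obtain ⟨y, rfl⟩ := h n
    exact Ideal.mul_mem_right _ _ (Ideal.pow_mem_pow hp n)
  rwa [Ideal.iInf_pow_eq_bot_of_isLocalRing _ (IsLocalRing.maximalIdeal.isMaximal O).ne_top,
    Ideal.mem_bot] at hmem

/-- An element congruent to a non-scalar one to high order is not scalar. -/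
lemma exists_level_not_scalarLike (hp : (p : O) ∈ IsLocalRing.maximalIdeal O) {h : AbsGal}
    (hh : ¬ IsScalarLike (D.eigenAction ι θ h)) :
    ∃ m : ℕ, ∀ g : AbsGal, (D.gal (g⁻¹ * h)).map (PadicInt.toZModPow m) = 1 →
      ¬ IsScalarLike (D.eigenAction ι θ g) := by
  by_contra! hall
  refine hh ⟨1, D.eigenMatrix ι θ h 0 0, one_ne_zero, ?_⟩
  have key : ∀ m : ℕ, (p : O) ^ m ∣ D.eigenMatrix ι θ h 0 1 ∧
      (p : O) ^ m ∣ D.eigenMatrix ι θ h 1 0 ∧
      (p : O) ^ m ∣ D.eigenMatrix ι θ h 1 1 - D.eigenMatrix ι θ h 0 0 := by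
    intro m
    obtain ⟨g, hg, a, b, ha, hab⟩ := hall m
    have hg' : a • D.eigenMatrix ι θ g = b • (1 : Matrix (Fin 2) (Fin 2) O) := by
      have : a • D.eigenAction ι θ g = b • (1 : Module.End O (eigenspace D.hecke θ)) :=
        LinearMap.ext fun v => by simpa using hab v
      have h2 := congrArg (LinearMap.toMatrix (D.eigenBasis θ) (D.eigenBasis θ)) this
      simpa [eigenMatrix, Module.End.one_eq_id, LinearMap.toMatrix_id] using h2
    have e : ∀ i j, a * D.eigenMatrix ι θ g i j = if i = j then b else 0 := fun i j => by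
      have := congrFun (congrFun hg' i) j
      simpa [Matrix.one_apply] using this
    have g01 : D.eigenMatrix ι θ g 0 1 = 0 :=
      (mul_eq_zero.mp ((e 0 1).trans (if_neg (by decide)))).resolve_left ha
    have g10 : D.eigenMatrix ι θ g 1 0 = 0 :=
      (mul_eq_zero.mp ((e 1 0).trans (if_neg (by decide)))).resolve_left ha
    have g11 : D.eigenMatrix ι θ g 1 1 = D.eigenMatrix ι θ g 0 0 :=
      mul_left_cancel₀ ha (((e 1 1).trans (if_pos rfl)).trans ((e 0 0).trans (if_pos rfl)).symm)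
    refine ⟨?_, ?_, ?_⟩
    · simpa [g01] using D.eigenMatrix_congr ι θ hg 0 1
    · simpa [g10] using D.eigenMatrix_congr ι θ hg 1 0
    · have h2 := dvd_sub (D.eigenMatrix_congr ι θ hg 1 1) (D.eigenMatrix_congr ι θ hg 0 0)
      rwa [g11, sub_sub_sub_cancel_right] at h2
  have h01 := eq_zero_of_forall_pow_dvd hp fun m => (key m).1
  have h10 := eq_zero_of_forall_pow_dvd hp fun m => (key m).2.1
  have h11 := sub_eq_zero.mp (eq_zero_of_forall_pow_dvd hp fun m => (key m).2.2)
  intro v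
  have hM : D.eigenAction ι θ h =
      D.eigenMatrix ι θ h 0 0 • (1 : Module.End O (eigenspace D.hecke θ)) := by
    refine (LinearMap.toMatrix (D.eigenBasis θ) (D.eigenBasis θ)).injective ?_
    change D.eigenMatrix ι θ h = _
    rw [map_smul, Module.End.one_eq_id, LinearMap.toMatrix_id]
    ext i j
    fin_cases i <;> fin_cases j <;> simp [h01, h10, h11]
  rw [one_smul, hM]
  simp

variable (hd : FrobeniusDensity) (hp : (p : O) ∈ IsLocalRing.maximalIdeal O)

include hd hp in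
/-- At a non-scalar element the determinant agrees with the cyclotomic character modulo `p ^ n`. -/
lemma det_cyclotomic_of_not_scalarLike {h : AbsGal}
    (hh : ¬ IsScalarLike (D.eigenAction ι θ h)) (n : ℕ) {ζ : AlgebraicClosure ℚ}
    (hζ : ζ ^ (p ^ n) = 1) :
    ∃ a : ℕ, (p : O) ^ n ∣ LinearMap.det (D.eigenAction ι θ h) - a ∧ h ζ = ζ ^ a := by
  obtain ⟨m, hm⟩ := D.exists_level_not_scalarLike ι θ hp hh
  obtain ⟨L₁, hL₁, h₁⟩ := D.gal_continuous n
  obtain ⟨L₂, hL₂, h₂⟩ := D.gal_continuous m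
  have : FiniteDimensional ℚ (IntermediateField.adjoin ℚ {ζ}) :=
    IntermediateField.adjoin.finiteDimensional (Algebra.IsIntegral.isIntegral ζ)
  obtain ⟨ℓ, hℓ, hℓS, A, hA, σ, hσ, i, hi⟩ :=
    hd (L₁ ⊔ L₂ ⊔ IntermediateField.adjoin ℚ {ζ}) inferInstance h (N * p).primeFactors
  have hℓN : ¬ ℓ ∣ N * p := fun hdvd => hℓS (Nat.mem_primeFactors.mpr
    ⟨hℓ, hdvd, mul_ne_zero (NeZero.ne N) (Fact.out : p.Prime).ne_zero⟩)
  have hfix := inv_mul_fixes (fun x hx => (hi x hx).symm)
  have hnot : ¬ IsScalarLike (D.eigenAction ι θ σ) := by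
    rintro ⟨a, b, ha, hab⟩
    refine hm (σ ^ i) (h₂ _ fun x hx =>
      hfix x ((le_sup_right (a := L₁)).trans le_sup_left hx)) ⟨a ^ i, b ^ i, pow_ne_zero _ ha, ?_⟩
    intro v
    rw [map_pow]
    have : (a • D.eigenAction ι θ σ) ^ i =
        (b • (1 : Module.End O (eigenspace D.hecke θ))) ^ i := by
      congr 1
      exact LinearMap.ext fun v => by simpa using hab v
    rw [_root_.smul_pow, _root_.smul_pow, one_pow] at this
    simpa using LinearMap.congr_fun this v
  have hdet : LinearMap.det (D.eigenAction ι θ σ) = (ℓ : O) := by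
    have hc := charpoly_of_quadratic (D.finrank_eigenspace_domain θ) (D.eigenAction ι θ σ)
      (θ (HeckeDuality.heckeOp N 2 ℓ hℓ)) (ℓ : O) (by exact_mod_cast hℓ.ne_zero)
      (D.eigenAction_quadratic ι θ hℓ hℓN hA hσ) (fun hs => absurd hs hnot)
    rw [LinearMap.det_eq_sign_charpoly_coeff, hc, D.finrank_eigenspace_domain θ]
    simp
  refine ⟨ℓ ^ i, ?_, ?_⟩
  · have := D.det_congr ι θ (g := σ ^ i) (h := h)
      (h₁ _ fun x hx => hfix x ((le_sup_left (b := L₂)).trans le_sup_left hx))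
    rw [map_pow, map_pow, hdet] at this
    exact_mod_cast this
  · rw [hi ζ (le_sup_right (a := L₁ ⊔ L₂) (IntermediateField.mem_adjoin_simple_self ℚ ζ))]
    refine pow_apply_root (frobenius_apply_root hA hℓ hσ hζ fun hdvd => hℓN ?_) i
    exact dvd_mul_of_dvd_right (hℓ.dvd_of_dvd_pow hdvd) N

include hd hp in
/-- An element acting on the `p ^ n`-th roots of unity by the exponent `q` has determinant
congruent to `q` modulo `p ^ n`. -/
lemma pow_dvd_det_sub {s : AbsGal} {q n : ℕ}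
    (hs : ∀ ζ : AlgebraicClosure ℚ, ζ ^ (p ^ n) = 1 → s ζ = ζ ^ q) :
    (p : O) ^ n ∣ LinearMap.det (D.eigenAction ι θ s) - (q : O) := by
  obtain ⟨c, hc2, hc⟩ := D.exists_conj
  have hcn := D.not_isScalarLike_conj ι θ hc
  have : NeZero (p ^ n) := ⟨pow_ne_zero _ (Fact.out : p.Prime).ne_zero⟩
  obtain ⟨ζ, hζ⟩ := exists_primitiveRoot (p ^ n)
  suffices h : ∃ a : ℕ, (p : O) ^ n ∣ LinearMap.det (D.eigenAction ι θ s) - a ∧ s ζ = ζ ^ a by
    obtain ⟨a, ha, hsa⟩ := h
    rw [hs ζ hζ.pow_eq_one] at hsa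
    have h2 := (hζ.isOfFinOrder (NeZero.ne _)).pow_eq_pow_iff_modEq.mp hsa
    rw [← hζ.eq_orderOf, Nat.modEq_iff_dvd] at h2
    have := map_dvd (Int.castRingHom O) h2
    simp only [eq_intCast, Int.cast_natCast, Int.cast_sub, Nat.cast_pow, Int.cast_pow] at this
    have h3 := dvd_add ha this
    rwa [sub_add_sub_cancel] at h3
  by_cases hscal : IsScalarLike (D.eigenAction ι θ s)
  · have hcsn : ¬ IsScalarLike (D.eigenAction ι θ (c * s)) := by
      rintro ⟨a, b, ha, hab⟩
      obtain ⟨a', b', ha', hab'⟩ := hscal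
      refine hcn ⟨a * b', a' * b, mul_ne_zero ha ?_, fun v => ?_⟩
      · intro hb'
        have hinj : Function.Injective (D.eigenAction ι θ s) := by
          refine Function.LeftInverse.injective (g := D.eigenAction ι θ s⁻¹) fun x => ?_
          rw [← Module.End.mul_apply, ← map_mul, inv_mul_cancel, map_one, Module.End.one_apply]
        have h0 : ∀ x : eigenspace D.hecke θ, x = 0 := fun x => by
          have := hab' x
          rw [hb', zero_smul] at this
          exact hinj ((smul_eq_zero.mp this).resolve_left ha' |>.trans (map_zero _).symm)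
        exact (D.eigenBasis θ).ne_zero 0 (h0 _)
      · have h1 : D.eigenAction ι θ c (a' • D.eigenAction ι θ s v) =
            D.eigenAction ι θ c (b' • v) := by rw [hab' v]
        rw [map_smul, map_smul, ← Module.End.mul_apply, ← map_mul] at h1
        have h2 := congrArg (fun x => a • x) h1
        simp only [smul_comm a a', hab v, smul_smul] at h2
        exact h2.symm
    obtain ⟨a, ha, haζ⟩ :=
      D.det_cyclotomic_of_not_scalarLike ι θ hd hp hcn n hζ.pow_eq_one
    obtain ⟨b, hb, hbζ⟩ :=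
      D.det_cyclotomic_of_not_scalarLike ι θ hd hp hcsn n hζ.pow_eq_one
    refine ⟨a * b, ?_, ?_⟩
    · have hdet : LinearMap.det (D.eigenAction ι θ s) =
          LinearMap.det (D.eigenAction ι θ c) * LinearMap.det (D.eigenAction ι θ (c * s)) := by
        rw [← map_mul, ← map_mul, ← mul_assoc, hc2, one_mul]
      obtain ⟨x, hx⟩ := ha
      obtain ⟨y, hy⟩ := hb
      refine ⟨x * LinearMap.det (D.eigenAction ι θ (c * s)) + (a : O) * y, ?_⟩
      push_cast
      linear_combination hdet + LinearMap.det (D.eigenAction ι θ (c * s)) * hx + (a : O) * hy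
    · calc s ζ = c ((c * s) ζ) := by rw [← AlgEquiv.mul_apply, ← mul_assoc, hc2, one_mul]
        _ = ζ ^ (a * b) := by rw [hbζ, map_pow, haζ, ← pow_mul]
  · exact D.det_cyclotomic_of_not_scalarLike ι θ hd hp hscal n hζ.pow_eq_one

include hd hp in
/-- The determinant at a Frobenius element is the prime. -/
lemma det_eigenAction_frobenius {ℓ : ℕ} (hℓ : ℓ.Prime) (hℓN : ¬ ℓ ∣ N * p)
    {A : ValuationSubring (AlgebraicClosure ℚ)} (hA : A.LiesOverPrime ℓ) {s : AbsGal}
    (hs : A.IsFrobeniusAt s ℓ) : LinearMap.det (D.eigenAction ι θ s) = (ℓ : O) :=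
  sub_eq_zero.mp (eq_zero_of_forall_pow_dvd hp fun _ => D.pow_dvd_det_sub ι θ hd hp
    fun _ hζ => frobenius_apply_root hA hℓ hs hζ fun hdvd =>
      hℓN (dvd_mul_of_dvd_right (hℓ.dvd_of_dvd_pow hdvd) N))

include hd hp in
theorem charpoly_eigenAction_frobenius {ℓ : ℕ} (hℓ : ℓ.Prime) (hℓN : ¬ ℓ ∣ N * p)
    {A : ValuationSubring (AlgebraicClosure ℚ)} (hA : A.LiesOverPrime ℓ) {s : AbsGal}
    (hs : A.IsFrobeniusAt s ℓ) :
    LinearMap.charpoly (D.eigenAction ι θ s) =
      X ^ 2 - C (θ (HeckeDuality.heckeOp N 2 ℓ hℓ)) * X + C (ℓ : O) :=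
  charpoly_of_quadratic (D.finrank_eigenspace_domain θ) _ _ _ (by exact_mod_cast hℓ.ne_zero)
    (D.eigenAction_quadratic ι θ hℓ hℓN hA hs) fun _ =>
      D.det_eigenAction_frobenius ι θ hd hp hℓ hℓN hA hs

/-- The adic representation on the eigen-lattice. -/
def rep : GaloisRepAdic O where
  V := eigenspace D.hecke θ
  finrank_eq := D.finrank_eigenspace_domain θ
  ρ := D.eigenAction ι θ
  isAdicContinuous := by
    intro n
    obtain ⟨L, hL, h⟩ := D.gal_continuous n
    refine ⟨L, hL, fun σ hσ v => ?_⟩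
    obtain ⟨w, hw⟩ := D.eigenAction_congr ι θ (h σ hσ) v
    rw [hw]
    exact Submodule.smul_mem_smul (Ideal.pow_mem_pow hp n) Submodule.mem_top

lemma rep_isUnramifiedAt {ℓ : ℕ} (hℓ : ℓ.Prime) (hℓN : ¬ ℓ ∣ N * p) :
    (D.rep ι θ hp).IsUnramifiedAt ℓ := by
  intro A hA σ hσ
  show D.eigenAction ι θ σ = 1
  refine LinearMap.ext fun v => Subtype.ext ?_
  rw [coe_eigenAction, D.gal_unramified ℓ hℓ hℓN A hA σ hσ,
    Matrix.map_one ι (map_zero ι) (map_one ι), Matrix.one_mulVec, Module.End.one_apply]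

end HeckeGaloisModel

end Fermat.Agent.GaloisReps

end
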