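import Fermat.Agent.GaloisReps.OfInjective
import Fermat.Agent.FiniteFlat.TorsionInjective

/-!
# The congruences on torsion and the models of `J₀(N)`, unconditionally
-/

set_option autoImplicit false

noncomputable section

namespace Fermat.Agent.GaloisReps

/-- Eichler–Shimura on torsion. -/
theorem congruenceProperty (N p : ℕ) [NeZero N] [Fact p.Prime] : CongruenceProperty N p :=
  congruenceProperty_of_injective (FiniteFlat.injectiveOnTorsion_of_lattice N)

/-- The models exist. -/
theorem models : ∀ (N p : ℕ) [NeZero N] [Fact p.Prime], Nonempty (HeckeGaloisModel N p) :=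
  models_of_injective fun N _ => FiniteFlat.injectiveOnTorsion_of_lattice N

end Fermat.Agent.GaloisReps

end
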