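import Fermat.Agent.GaloisReps.Matching

/-!
# Unramifiedness of a Hecke–Galois datum, given the model of `J₀(N)`

A Galois element and its product with an inertia element at a prime `q` outside `S` act in the same
way on the model, hence are matched at every finite level by Frobenius powers with congruent Hecke
eigenvalues; so they have the same trace in the datum, whose residual representation is absolutely
irreducible.
-/

set_option autoImplicit false

noncomputable section

open Polynomial Module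

namespace Fermat.Agent.GaloisReps

variable {p : ℕ} [Fact p.Prime] {N : ℕ} [NeZero N] {S : Finset ℕ}
  {O : Type} [CommRing O] [IsDomain O] [IsDiscreteValuationRing O]
  [IsAdicComplete (IsLocalRing.maximalIdeal O) O]
  {θ : CuspForm.heckeAlgebra N 2 (↑S : Set ℕ) →+* IsLocalRing.ResidueField O}
  {T : Type} [CommRing T] [IsLocalRing T] [IsNoetherianRing T]
  [IsAdicComplete (IsLocalRing.maximalIdeal T) T] [Algebra O T] [IsLocalHom (algebraMap O T)]
  [Module.Finite O T] [Module.Free O T]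

/-- A linear relation among `g + χ(g) g⁻¹` on the model gives the same relation among traces
in the datum. -/
theorem trace_sum_eq_zero_of_model (D : HeckeGaloisModel N p)
    (hpO : (p : O) ∈ IsLocalRing.maximalIdeal O)
    (H : CuspForm.HeckeGaloisRepDatum N (↑S : Set ℕ) O θ T)
    {ι : Type} (s : Finset ι) (c : ι → ℤ) (g : ι → AbsGal) (g₀ : AbsGal)
    (hroots : ∀ i ∈ s, ∀ (n : ℕ) (ζ : AlgebraicClosure ℚ), ζ ^ (p ^ n) = 1 → g i ζ = g₀ ζ)
    (hgal : ∀ n a : ℕ, (∀ ζ : AlgebraicClosure ℚ, ζ ^ (p ^ n) = 1 → g₀ ζ = ζ ^ a) →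
      (PadicInt.toZModPow n).mapMatrix
        (∑ i ∈ s, c i • (D.gal (g i) + a • D.gal (g i)⁻¹)) = 0) :
    ∑ i ∈ s, c i • LinearMap.trace T H.ρ.V (H.ρ.ρ (g i)) = 0 := by
  classical
  have hpT : (p : T) ∈ IsLocalRing.maximalIdeal T := by
    rw [← map_natCast (algebraMap O T) p]; exact map_nonunit (algebraMap O T) _ hpO
  let incl := toFull (N := N) (↑S : Set ℕ)
  -- the matching at level `n`
  have key := exists_matching D H
  -- divisibility in the lattice
  obtain ⟨k, hsat⟩ := exists_saturation D hpO H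
  refine (IsAdicComplete.toIsHausdorff (I := IsLocalRing.maximalIdeal T)).haus _ fun n => ?_
  rw [SModEq.zero, smul_eq_mul, Ideal.mul_top]
  have : NeZero (p ^ (n + k)) := ⟨pow_ne_zero _ (Fact.out : p.Prime).ne_zero⟩
  obtain ⟨ζ, hζ⟩ := exists_primitiveRoot (p ^ (n + k))
  obtain ⟨-, a, -, -, hza⟩ := key (n + k) ζ hζ.pow_eq_one g₀
  choose t a' h₁ htr hz using fun i => key (n + k) ζ hζ.pow_eq_one (g i)
  have hall : ∀ x : AlgebraicClosure ℚ, x ^ (p ^ (n + k)) = 1 → g₀ x = x ^ a := by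
    intro x hx
    obtain ⟨j, -, rfl⟩ := hζ.eq_pow_of_pow_eq_one hx
    rw [map_pow, hza, ← pow_mul, ← pow_mul, mul_comm]
  have hti : ∀ i ∈ s, (PadicInt.toZModPow (n + k)).mapMatrix (matIn D.hecke ℤ_[p] (incl (t i))) =
      (PadicInt.toZModPow (n + k)).mapMatrix (D.gal (g i) + a • D.gal (g i)⁻¹) := by
    intro i hi
    have ha : (a' i : ZMod (p ^ (n + k))) = a := by
      have hz₂ := hz i
      rw [hroots i hi _ ζ hζ.pow_eq_one, hza] at hz₂
      have := (hζ.isOfFinOrder (NeZero.ne _)).pow_eq_pow_iff_modEq.mp hz₂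
      rwa [← hζ.eq_orderOf, ← ZMod.natCast_eq_natCast_iff, eq_comm] at this
    have hcast : (a' i : Matrix (Fin D.d) (Fin D.d) (ZMod (p ^ (n + k)))) = a := by
      rw [← map_natCast (algebraMap (ZMod (p ^ (n + k))) _) (a' i), ha, map_natCast]
    have h := h₁ i
    simp only [← RingHom.mapMatrix_apply, map_add, map_sub, map_mul, map_natCast, hcast] at h
    have hinv : (PadicInt.toZModPow (n + k)).mapMatrix (D.gal (g i)) *
        (PadicInt.toZModPow (n + k)).mapMatrix (D.gal (g i)⁻¹) = 1 := by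
      rw [← map_mul, ← map_mul, mul_inv_cancel, map_one, map_one]
    rw [sub_add_eq_add_sub, sub_eq_zero] at h
    rw [← mul_one ((PadicInt.toZModPow (n + k)).mapMatrix (matIn D.hecke ℤ_[p] (incl (t i)))),
      ← hinv, ← mul_assoc, ← h, add_mul, mul_assoc, hinv, mul_one, map_add, map_nsmul,
      nsmul_eq_mul]
  have hd : (PadicInt.toZModPow (n + k)).mapMatrix
      (matIn D.hecke ℤ_[p] (incl (∑ i ∈ s, c i • t i))) = 0 := by
    rw [← hgal (n + k) a hall]
    simp only [map_sum, map_zsmul]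
    exact Finset.sum_congr rfl fun i hi => by rw [hti i hi]
  have hπ := hsat n _ hd
  have hle : IsLocalRing.maximalIdeal T ^ (n + k) ≤ IsLocalRing.maximalIdeal T ^ n :=
    Ideal.pow_le_pow_right (Nat.le_add_right n k)
  rw [map_sum] at hπ
  simp only [map_zsmul] at hπ
  have := (IsLocalRing.maximalIdeal T ^ n).add_mem hπ
    (Ideal.sum_mem _ fun i (_ : i ∈ s) =>
      (show c i • (LinearMap.trace T H.ρ.V (H.ρ.ρ (g i)) - H.π (t i)) ∈ _ from
        zsmul_mem (hle (htr i)) (c i)))
  simpa [smul_sub, Finset.sum_sub_distrib] using this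

/-- S31 from a model. -/
theorem isUnramifiedAt_of_model (D : HeckeGaloisModel N p)
    (hpO : (p : O) ∈ IsLocalRing.maximalIdeal O) (hpS : p ∈ S)
    (hNS : ∀ q : ℕ, q.Prime → q ∣ N → q ∈ S)
    (H : CuspForm.HeckeGaloisRepDatum N (↑S : Set ℕ) O θ T)
    (q : ℕ) (hq : q.Prime) (hqS : q ∉ S) : H.ρ.IsUnramifiedAt q := by
  intro A hA τ hτ
  have hqp : q ≠ p := fun h => hqS (h ▸ hpS)
  have hqN : ¬ q ∣ N * p := fun h => (hq.dvd_mul.mp h).elim (fun h' => hqS (hNS q hq h'))
    fun h' => hqp ((Nat.prime_dvd_prime_iff_eq hq Fact.out).mp h')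
  have h1 : D.gal τ = 1 := D.gal_unramified q hq hqN A hA τ hτ
  have h2 : D.gal τ⁻¹ = 1 := by
    have := map_mul D.gal τ⁻¹ τ
    rwa [inv_mul_cancel, map_one, h1, mul_one, eq_comm] at this
  refine sub_eq_zero.mp (Arith.eq_zero_of_forall_trace_comp H.ρ H.residual_absIrr (H.ρ.ρ τ - 1)
    fun σ => ?_)
  have := trace_sum_eq_zero_of_model D hpO H Finset.univ ![(1 : ℤ), -1] ![σ * τ, σ] σ
    (fun i _ n ζ hζ => ?_) (fun n a _ => ?_)
  · rw [mul_sub, mul_one, ← map_mul, map_sub, sub_eq_add_neg]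
    simpa [Fin.sum_univ_two] using this
  · fin_cases i
    · exact congrArg σ (Arith.inertia_root hA hq hτ hζ fun h =>
        hqp ((Nat.prime_dvd_prime_iff_eq hq Fact.out).mp (hq.dvd_of_dvd_pow h)))
    · rfl
  · rw [Fin.sum_univ_two]
    simp [h1, h2, -map_sum]
    abel_nf
    simp

end Fermat.Agent.GaloisReps

end
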